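import Fermat.Agent.MU.S56.W3.SO.Defs
import Fermat.Agent.MU.S56.W3.SO.Kummer
import Fermat.Agent.F4.HyperLES

section MergeWrap_S56_W3_SO_Tri -- from S56/W3/SO/Tri.lean

set_option autoImplicit false

namespace Fermat.Agent.S56.SO

open Matrix

variable {k : Type} [Field k] {V : Type} [AddCommGroup V] [Module k V]
  (w : Module.Basis (Fin 2) k V)

/-- `g` is upper triangular with respect to `w`. -/
def IsTri (g : Module.End k V) : Prop := w.repr (g (w 0)) 1 = 0

/-- The matrix of an endomorphism. -/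
noncomputable abbrev mat (g : Module.End k V) : Matrix (Fin 2) (Fin 2) k :=
  LinearMap.toMatrix w w g

theorem mat_apply (g : Module.End k V) (i j : Fin 2) : mat w g i j = w.repr (g (w j)) i :=
  LinearMap.toMatrix_apply w w g i j

theorem mat_mul (g h : Module.End k V) : mat w (g * h) = mat w g * mat w h :=
  LinearMap.toMatrix_mul w g h

theorem mat_one : mat w (1 : Module.End k V) = 1 := LinearMap.toMatrix_one w

theorem mat_injective : Function.Injective (mat w : Module.End k V → _) :=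
  (LinearMap.toMatrix w w).injective

theorem isTri_iff (g : Module.End k V) : IsTri w g ↔ mat w g 1 0 = 0 := by
  rw [mat_apply]; rfl

theorem mem_W0_iff_mat (f : Module.End k V) :
    f ∈ W0 w ↔ mat w f 0 0 = 0 ∧ mat w f 1 0 = 0 ∧ mat w f 1 1 = 0 := by
  rw [mem_W0, mat_apply, mat_apply, mat_apply]
  constructor
  · rintro ⟨h0, h1⟩
    refine ⟨by rw [h0]; simp, by rw [h0]; simp, h1⟩
  · rintro ⟨h00, h10, h11⟩
    refine ⟨?_, h11⟩
    apply w.repr.injective
    ext i
    fin_cases i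
    · simpa using h00
    · simpa using h10

/-- The entries of a product of `2 × 2` matrices. -/
theorem mul_apply_two (A B : Matrix (Fin 2) (Fin 2) k) (i j : Fin 2) :
    (A * B) i j = A i 0 * B 0 j + A i 1 * B 1 j := by
  rw [Matrix.mul_apply, Fin.sum_univ_two]

section Inverse

variable {w} {g g' : Module.End k V}

/-- The relations between the entries of a triangular `g` and its inverse `g'`. -/
theorem tri_entries (hg : IsTri w g) (hgg' : g * g' = 1) :
    mat w g 1 1 * mat w g' 1 1 = 1 ∧ mat w g' 1 0 = 0 ∧ mat w g 0 0 * mat w g' 0 0 = 1 ∧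
      mat w g 0 0 * mat w g' 0 1 + mat w g 0 1 * mat w g' 1 1 = 0 := by
  have hM : mat w g * mat w g' = 1 := by rw [← mat_mul, hgg', mat_one]
  have h10 := (isTri_iff w g).mp hg
  have e11 := congrFun (congrFun hM 1) 1
  have e10 := congrFun (congrFun hM 1) 0
  have e00 := congrFun (congrFun hM 0) 0
  have e01 := congrFun (congrFun hM 0) 1
  rw [mul_apply_two] at e11 e10 e00 e01
  simp only [h10, zero_mul, zero_add, Matrix.one_apply_eq, Matrix.one_apply_ne,
    ne_eq, one_ne_zero, zero_ne_one, not_false_eq_true] at e11 e10 e00 e01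
  have hz : mat w g 1 1 ≠ 0 := by
    intro h
    rw [h, zero_mul] at e11
    exact zero_ne_one e11
  have hc : mat w g' 1 0 = 0 := by
    rcases mul_eq_zero.mp e10 with h | h
    · exact absurd h hz
    · exact h
  rw [hc, mul_zero, add_zero] at e00
  exact ⟨e11, hc, e00, e01⟩

theorem tri_diag_ne_zero (hg : IsTri w g) (hgg' : g * g' = 1) :
    mat w g 0 0 ≠ 0 ∧ mat w g 1 1 ≠ 0 := by
  obtain ⟨h1, -, h2, -⟩ := tri_entries hg hgg'
  constructor
  · intro h
    rw [h, zero_mul] at h2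
    exact zero_ne_one h2
  · intro h
    rw [h, zero_mul] at h1
    exact zero_ne_one h1

/-- Conjugation by a triangular automorphism preserves `W0 w` and multiplies the coordinate
by the quotient of the diagonal entries. -/
theorem tri_conj_W0 (hg : IsTri w g) (hgg' : g * g' = 1) {f : Module.End k V}
    (hf : f ∈ W0 w) :
    g * f * g' ∈ W0 w ∧
      mat w (g * f * g') 0 1 = mat w g 0 0 / mat w g 1 1 * mat w f 0 1 := by
  obtain ⟨h1, h2, h3, h4⟩ := tri_entries hg hgg'
  obtain ⟨hz0, hz1⟩ := tri_diag_ne_zero hg hgg'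
  have h10 := (isTri_iff w g).mp hg
  obtain ⟨f00, f10, f11⟩ := (mem_W0_iff_mat w f).mp hf
  have key : ∀ i j, mat w (g * f * g') i j =
      (mat w g i 0 * mat w f 0 0 + mat w g i 1 * mat w f 1 0) * mat w g' 0 j +
        (mat w g i 0 * mat w f 0 1 + mat w g i 1 * mat w f 1 1) * mat w g' 1 j := by
    intro i j
    rw [mat_mul, mat_mul, mul_apply_two, mul_apply_two, mul_apply_two]
  refine ⟨(mem_W0_iff_mat w _).mpr ⟨?_, ?_, ?_⟩, ?_⟩
  · rw [key, f00, f10, f11, h2]; ring
  · rw [key, f00, f10, f11, h2]; ring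
  · rw [key, f00, f10, f11, h10]; ring
  · rw [key, f00, f10, f11]
    have : mat w g' 1 1 = (mat w g 1 1)⁻¹ := eq_inv_of_mul_eq_one_right h1
    rw [this]
    field_simp
    ring

/-- Conjugating a triangular endomorphism by a triangular automorphism changes it by an
element of `W0 w`. -/
theorem tri_conj_sub_mem_W0 (hg : IsTri w g) (hgg' : g * g' = 1) {m : Module.End k V}
    (hm : IsTri w m) : g * m * g' - m ∈ W0 w := by
  obtain ⟨h1, h2, h3, h4⟩ := tri_entries hg hgg'
  have h10 := (isTri_iff w g).mp hg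
  have m10 := (isTri_iff w m).mp hm
  have key : ∀ i j, mat w (g * m * g' - m) i j =
      (mat w g i 0 * mat w m 0 0 + mat w g i 1 * mat w m 1 0) * mat w g' 0 j +
        (mat w g i 0 * mat w m 0 1 + mat w g i 1 * mat w m 1 1) * mat w g' 1 j - mat w m i j := by
    intro i j
    rw [mat, map_sub, Matrix.sub_apply]
    congr 1
    rw [← mat, mat_mul, mat_mul, mul_apply_two, mul_apply_two, mul_apply_two]
  refine (mem_W0_iff_mat w _).mpr ⟨?_, ?_, ?_⟩
  · rw [key, m10, h2]
    linear_combination mat w m 0 0 * h3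
  · rw [key, m10, h2, h10]; ring
  · rw [key, m10, h10]
    linear_combination mat w m 1 1 * h1

end Inverse

/-- An element of `W0 w` is determined by its upper right entry. -/
theorem W0_eq_zero_of_entry {f : Module.End k V} (hf : f ∈ W0 w) (h : mat w f 0 1 = 0) :
    f = 0 := by
  obtain ⟨f00, f10, f11⟩ := (mem_W0_iff_mat w f).mp hf
  apply mat_injective w
  ext i j
  fin_cases i <;> fin_cases j
  · simpa using f00
  · simpa using h
  · simpa using f10
  · simpa using f11

end Fermat.Agent.S56.SO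
end MergeWrap_S56_W3_SO_Tri

section MergeWrap_S56_W3_SO_Count -- from S56/W3/SO/Count.lean

set_option autoImplicit false

namespace Fermat.Agent.S56.SO

open Fermat.Agent.F4 ExtCitation Matrix

/-! ### The kernel of `ρbar` is a level -/

/-- A normal subgroup of `G_ℚ` containing the fixing subgroup of a finite extension is a level. -/
theorem mem_levelsAll_of_normal (K : Subgroup GQ) [hK : K.Normal]
    (F₀ : IntermediateField ℚ (AlgebraicClosure ℚ)) [FiniteDimensional ℚ F₀]
    (hF₀ : F₀.fixingSubgroup ≤ K) : K ∈ levelsAll.sets := by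
  have := isGalois_Qbar
  have hopen : IsOpen (K : Set GQ) :=
    Subgroup.isOpen_mono hF₀ (IntermediateField.fixingSubgroup_isOpen F₀)
  have hclosed : IsClosed (K : Set GQ) := Subgroup.isClosed_of_isOpen K hopen
  let Kc : ClosedSubgroup GQ := ⟨K, hclosed⟩
  have hfix : (IntermediateField.fixedField K).fixingSubgroup = K :=
    InfiniteGalois.fixingSubgroup_fixedField Kc
  have hle : IntermediateField.fixedField K ≤ F₀ := by
    have h1 : IntermediateField.fixedField K ≤
        IntermediateField.fixedField F₀.fixingSubgroup := by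
      intro x hx
      rw [IntermediateField.mem_fixedField_iff] at hx ⊢
      exact fun σ hσ => hx σ (hF₀ hσ)
    rwa [InfiniteGalois.fixedField_fixingSubgroup] at h1
  have hfd : FiniteDimensional ℚ (IntermediateField.fixedField K) :=
    FiniteDimensional.of_injective (IntermediateField.inclusion hle).toLinearMap
      (IntermediateField.inclusion_injective hle)
  refine ⟨IntermediateField.fixedField K, hfd, ?_, hfix.symm⟩
  intro σ x hx
  rw [IntermediateField.mem_fixedField_iff] at hx ⊢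
  intro τ hτ
  have h2 : σ⁻¹ * τ * σ ∈ K := by
    have := hK.conj_mem τ hτ σ⁻¹
    simpa using this
  have h3 := hx _ h2
  have h4 : σ ((σ⁻¹ * τ * σ) x) = τ (σ x) := by
    show σ (σ⁻¹ (τ (σ x))) = τ (σ x)
    show σ (σ.symm (τ (σ x))) = τ (σ x)
    simp
  rw [← h4, h3]

variable {k : Type} [Field k]

/-- The kernel of a residual representation is a level. -/
theorem ker_mem_levelsAll (ρbar : ResidualGaloisRep k) : ρbar.ρ.ker ∈ levelsAll.sets := by
  obtain ⟨L, hL, h⟩ := ρbar.factorsThroughFiniteLevel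
  have := hL
  refine mem_levelsAll_of_normal ρbar.ρ.ker L ?_
  intro σ hσ
  rw [MonoidHom.mem_ker]
  exact h σ (fun x hx => (IntermediateField.mem_fixingSubgroup_iff L σ).mp hσ x hx)

/-- `ad⁰ρbar` is smooth for the level structure of all finite Galois extensions. -/
theorem isSmooth_ad0_all (ρbar : ResidualGaloisRep k) : IsSmooth levelsAll (ad0 ρbar) := by
  intro a
  refine ⟨ρbar.ρ.ker, ker_mem_levelsAll ρbar, fun g hg => ?_⟩
  have h1 : ρbar.ρ g = 1 := MonoidHom.mem_ker.mp hg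
  have h2 : ρbar.ρ g⁻¹ = 1 := MonoidHom.mem_ker.mp (inv_mem hg)
  apply Subtype.ext
  show ρbar.ρ g * (a : ↥(ad0Sub ρbar)).1 * ρbar.ρ g⁻¹ = (a : ↥(ad0Sub ρbar)).1
  rw [h1, h2, one_mul, mul_one]

/-! ### The local module and the `W0`-valued cocycles -/

section Local

variable (p : ℕ) [Fact p.Prime] (ρbar : ResidualGaloisRep k)

/-- `ad⁰ρbar` as a module over the local group at `p`. -/
noncomputable abbrev Mloc : Rep k (Gp p) := locRep (ad0 ρbar) (pPrime p)

/-- The underlying endomorphism of an element of `ad⁰ρbar`. -/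
noncomputable def toEnd : (ad0 ρbar) →ₗ[k] Module.End k ρbar.V := (ad0Sub ρbar).subtype

theorem toEnd_injective : Function.Injective (toEnd ρbar) := Subtype.val_injective

theorem toEnd_ρ (σ : GQ) (x : ad0 ρbar) :
    toEnd ρbar ((ad0 ρbar).ρ σ x) = ρbar.ρ σ * toEnd ρbar x * ρbar.ρ σ⁻¹ := rfl

theorem trace_toEnd (x : ad0 ρbar) : LinearMap.trace k ρbar.V (toEnd ρbar x) = 0 := x.2

theorem Mloc_ρ (γ : Gp p) (x : Mloc p ρbar) :
    (Mloc p ρbar).ρ γ x = (ad0 ρbar).ρ (locp p γ) x := rfl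

theorem ρ_mul_inv (σ : GQ) : ρbar.ρ σ * ρbar.ρ σ⁻¹ = 1 := by
  rw [← map_mul, mul_inv_cancel, map_one]

theorem locp_mem_decomposition (γ : Gp p) :
    locp p γ ∈ (primeLocalPlace (pPrime p)).decompositionSubgroup ℚ :=
  localGaloisToGlobal_mem_decompositionSubgroup p γ

theorem isSmooth_Mloc : IsSmooth (locLevelsAll (pPrime p)) (Mloc p ρbar) := by
  intro a
  obtain ⟨U, hU, h⟩ := isSmooth_ad0_all ρbar a
  exact ⟨U.comap (primeLocalToGlobal (pPrime p)), ⟨U, hU, rfl⟩, fun g hg => h _ hg⟩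

variable (w : Module.Basis (Fin 2) k ρbar.V)

/-- The level-constant local cocycles with values in `W0 w`. -/
def Zw : Submodule k ↥(Z1 (locLevelsAll (pPrime p)) (Mloc p ρbar)) where
  carrier := {c | ∀ γ : Gp p, toEnd ρbar ((c : Gp p → Mloc p ρbar) γ) ∈ W0 w}
  add_mem' := by
    intro c c' hc hc' γ
    have : toEnd ρbar (((c + c' : ↥(Z1 (locLevelsAll (pPrime p)) (Mloc p ρbar))) :
        Gp p → Mloc p ρbar) γ) =
        toEnd ρbar ((c : Gp p → Mloc p ρbar) γ) + toEnd ρbar ((c' : Gp p → Mloc p ρbar) γ) :=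
      (toEnd ρbar).map_add ((c : Gp p → Mloc p ρbar) γ) ((c' : Gp p → Mloc p ρbar) γ)
    rw [this]
    exact (W0 w).add_mem (hc γ) (hc' γ)
  zero_mem' := fun γ => (W0 w).zero_mem
  smul_mem' := by
    intro a c hc γ
    have : toEnd ρbar (((a • c : ↥(Z1 (locLevelsAll (pPrime p)) (Mloc p ρbar))) :
        Gp p → Mloc p ρbar) γ) = a • toEnd ρbar ((c : Gp p → Mloc p ρbar) γ) :=
      (toEnd ρbar).map_smul a ((c : Gp p → Mloc p ρbar) γ)
    rw [this]
    exact (W0 w).smul_mem a (hc γ)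

theorem mem_Zw {c : ↥(Z1 (locLevelsAll (pPrime p)) (Mloc p ρbar))} :
    c ∈ Zw p ρbar w ↔ ∀ γ : Gp p, toEnd ρbar ((c : Gp p → Mloc p ρbar) γ) ∈ W0 w := Iff.rfl

/-- The class map restricted to the `W0`-valued cocycles. -/
noncomputable def classW : ↥(Zw p ρbar w) →+ H1loc (ad0 ρbar) (pPrime p) :=
  (H1smπ (locLevelsAll (pPrime p)) (Mloc p ρbar)).toAddMonoidHom.comp
    (Zw p ρbar w).subtype.toAddMonoidHom

/-- **The wall**: the classes of the `W0`-valued cocycles. -/
noncomputable def Lw : AddSubgroup (H1loc (ad0 ρbar) (pPrime p)) := (classW p ρbar w).range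

end Local

/-! ### The embedding of `Zw` into the twisted cocycles -/

section Embed

variable {p : ℕ} [Fact p.Prime] {ρbar : ResidualGaloisRep k}
  {w : Module.Basis (Fin 2) k ρbar.V}

theorem isTri_locp (hw : Fermat.Agent.S59.SO.SOTri ρbar.ρ p (primeLocalPlace (pPrime p)) w)
    (γ : Gp p) : IsTri w (ρbar.ρ (locp p γ)) :=
  hw.dec _ (locp_mem_decomposition p γ)

variable (p ρbar w) in
/-- The quotient of the diagonal characters of `ρbar` on the local group. -/
noncomputable def omegaW (γ : Gp p) : k :=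
  mat w (ρbar.ρ (locp p γ)) 0 0 / mat w (ρbar.ρ (locp p γ)) 1 1

theorem isCycLoc_omegaW (hw : Fermat.Agent.S59.SO.SOTri ρbar.ρ p (primeLocalPlace (pPrime p)) w)
    (hpk : (p : k) = 0) : IsCycLoc p (omegaW p ρbar w) := by
  intro γ a ha
  have h1 := hw.cyc _ (locp_mem_decomposition p γ) 1 a (fun μ hμ => ha μ (by rwa [pow_one] at hμ))
  rw [pow_one, hpk, Ideal.span_singleton_eq_bot.mpr rfl, Ideal.mem_bot, sub_eq_zero] at h1
  obtain ⟨-, hz⟩ := tri_diag_ne_zero (isTri_locp hw γ) (ρ_mul_inv ρbar _)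
  rw [omegaW, mat_apply, mat_apply, h1]
  rw [mat_apply] at hz
  field_simp

variable (p ρbar w) in
/-- The coordinate of a `W0`-valued cocycle. -/
noncomputable def coordW (c : ↥(Zw p ρbar w)) : Gp p → k :=
  fun γ => mat w (toEnd ρbar (((c : ↥(Z1 (locLevelsAll (pPrime p)) (Mloc p ρbar))) :
    Gp p → Mloc p ρbar) γ)) 0 1

theorem coordW_mem_twZ (hw : Fermat.Agent.S59.SO.SOTri ρbar.ρ p (primeLocalPlace (pPrime p)) w)
    (c : ↥(Zw p ρbar w)) : coordW p ρbar w c ∈ twZ p (omegaW p ρbar w) := by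
  refine ⟨?_, fun σ τ => ?_⟩
  · have hlc : IsLC₁ (locLevelsAll (pPrime p))
        ((c : ↥(Z1 (locLevelsAll (pPrime p)) (Mloc p ρbar))) : Gp p → Mloc p ρbar) := c.1.2.2
    exact hlc.comp (fun x => mat w (toEnd ρbar x) 0 1)
  · have hco := (groupCohomology.mem_cocycles₁_iff
      ((c : ↥(Z1 (locLevelsAll (pPrime p)) (Mloc p ρbar))) : Gp p → Mloc p ρbar)).mp c.1.2.1 σ τ
    have hW := tri_conj_W0 (isTri_locp hw σ) (ρ_mul_inv ρbar _) (c.2 τ)
    show mat w (toEnd ρbar (((c : ↥(Z1 (locLevelsAll (pPrime p)) (Mloc p ρbar))) :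
      Gp p → Mloc p ρbar) (σ * τ))) 0 1 = _
    rw [hco, map_add, Mloc_ρ, toEnd_ρ, mat, map_add, Matrix.add_apply, ← mat, ← mat, hW.2]
    rw [add_comm]
    rfl

theorem coordW_injective : Function.Injective (coordW p ρbar w) := by
  intro c c' h
  apply Subtype.ext
  apply Subtype.ext
  funext γ
  apply toEnd_injective ρbar
  have hγ := congrFun h γ
  have hsub : toEnd ρbar (((c : ↥(Z1 (locLevelsAll (pPrime p)) (Mloc p ρbar))) :
      Gp p → Mloc p ρbar) γ) - toEnd ρbar (((c' : ↥(Z1 (locLevelsAll (pPrime p)) (Mloc p ρbar))) :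
      Gp p → Mloc p ρbar) γ) = 0 := by
    apply W0_eq_zero_of_entry w ((W0 w).sub_mem (c.2 γ) (c'.2 γ))
    rw [mat, map_sub, Matrix.sub_apply, sub_eq_zero]
    exact hγ
  exact sub_eq_zero.mp hsub

/-- **`#Zw ≤ |k|³`.** -/
theorem card_Zw_le [Finite k] (hp2 : p ≠ 2) (hpk : (p : k) = 0)
    (hw : Fermat.Agent.S59.SO.SOTri ρbar.ρ p (primeLocalPlace (pPrime p)) w) :
    Finite ↥(Zw p ρbar w) ∧ Nat.card ↥(Zw p ρbar w) ≤ Nat.card k ^ 3 := by
  obtain ⟨hfin, hcard⟩ := twZ_card_le p hp2 hpk (omegaW p ρbar w) (isCycLoc_omegaW hw hpk)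
  let Φ : ↥(Zw p ρbar w) → ↥(twZ p (omegaW p ρbar w)) :=
    fun c => ⟨coordW p ρbar w c, coordW_mem_twZ hw c⟩
  have hΦ : Function.Injective Φ := fun c c' h =>
    coordW_injective (congrArg Subtype.val h)
  exact ⟨Finite.of_injective Φ hΦ, (Nat.card_le_card_of_injective Φ hΦ).trans hcard⟩

end Embed

/-! ### The coboundaries of the triangular trace-zero endomorphisms -/

section Cob

variable {p : ℕ} [Fact p.Prime] {ρbar : ResidualGaloisRep k}
  (w : Module.Basis (Fin 2) k ρbar.V)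

/-- The endomorphism with matrix `[[a, b], [0, -a]]`. -/
noncomputable def triEnd : k × k →+ Module.End k ρbar.V where
  toFun ab := (LinearMap.toMatrix w w).symm (ab.1 • !![1, 0; 0, -1] + ab.2 • !![0, 1; 0, 0])
  map_zero' := by
    show (LinearMap.toMatrix w w).symm ((0 : k) • !![1, 0; 0, -1] + (0 : k) • !![0, 1; 0, 0]) = 0
    rw [zero_smul, zero_smul, add_zero, map_zero]
  map_add' ab ab' := by
    show (LinearMap.toMatrix w w).symm
        ((ab.1 + ab'.1) • !![1, 0; 0, -1] + (ab.2 + ab'.2) • !![0, 1; 0, 0]) =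
      (LinearMap.toMatrix w w).symm (ab.1 • !![1, 0; 0, -1] + ab.2 • !![0, 1; 0, 0]) +
        (LinearMap.toMatrix w w).symm (ab'.1 • !![1, 0; 0, -1] + ab'.2 • !![0, 1; 0, 0])
    rw [← map_add, add_smul, add_smul]
    congr 1
    abel

theorem mat_triEnd (ab : k × k) : mat w (triEnd w ab) = !![ab.1, ab.2; 0, -ab.1] := by
  have h : mat w (triEnd w ab) = ab.1 • !![1, 0; 0, -1] + ab.2 • !![0, 1; 0, 0] :=
    LinearEquiv.apply_symm_apply _ _
  rw [h]
  ext i j
  fin_cases i <;> fin_cases j <;> simp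

theorem isTri_triEnd (ab : k × k) : IsTri w (triEnd w ab) := by
  rw [isTri_iff, mat_triEnd]
  rfl

theorem trace_triEnd (ab : k × k) : LinearMap.trace k ρbar.V (triEnd w ab) = 0 := by
  rw [LinearMap.trace_eq_matrix_trace k w, ← mat, mat_triEnd, Matrix.trace_fin_two]
  simp

theorem triEnd_injective : Function.Injective (triEnd w : k × k → Module.End k ρbar.V) := by
  intro ab ab' h
  have h1 := congrArg (mat w) h
  rw [mat_triEnd, mat_triEnd] at h1
  have e0 := congrFun (congrFun h1 0) 0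
  have e1 := congrFun (congrFun h1 0) 1
  simp at e0 e1
  exact Prod.ext e0 e1

/-- `[[a, b], [0, -a]]` as an element of `ad⁰ρbar`. -/
noncomputable def triAd : k × k →+ (ad0 ρbar) where
  toFun ab := (⟨triEnd w ab, trace_triEnd w ab⟩ : ↥(ad0Sub ρbar))
  map_zero' := Subtype.ext (map_zero (triEnd w))
  map_add' x y := Subtype.ext (map_add (triEnd w) x y)

theorem toEnd_triAd (ab : k × k) : toEnd ρbar (triAd w ab) = triEnd w ab := rfl

theorem triAd_injective : Function.Injective (triAd w : k × k → ad0 ρbar) := fun ab ab' h =>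
  triEnd_injective w (congrArg (toEnd ρbar) h)

variable {w}

/-- The coboundary of `triAd ab` as a `W0`-valued cocycle. -/
noncomputable def cobW (hw : Fermat.Agent.S59.SO.SOTri ρbar.ρ p (primeLocalPlace (pPrime p)) w) :
    k × k →+ ↥(Zw p ρbar w) where
  toFun ab := ⟨⟨δ0 (Mloc p ρbar) (triAd w ab),
      groupCohomology.d₀₁_apply_mem_cocycles₁ _, isLC₁_δ0 (isSmooth_Mloc p ρbar) _⟩, fun γ => by
    show toEnd ρbar ((Mloc p ρbar).ρ γ (triAd w ab) - triAd w ab) ∈ W0 w
    rw [map_sub, Mloc_ρ, toEnd_ρ, toEnd_triAd]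
    exact tri_conj_sub_mem_W0 (isTri_locp hw γ) (ρ_mul_inv ρbar _) (isTri_triEnd w ab)⟩
  map_zero' := by
    apply Subtype.ext
    apply Subtype.ext
    show δ0 (Mloc p ρbar) (triAd w 0) = 0
    rw [map_zero, map_zero]
  map_add' _ _ := by
    apply Subtype.ext
    apply Subtype.ext
    show δ0 (Mloc p ρbar) (triAd w (_ + _)) =
      δ0 (Mloc p ρbar) (triAd w _) + δ0 (Mloc p ρbar) (triAd w _)
    rw [map_add, map_add]

theorem cobW_apply (hw : Fermat.Agent.S59.SO.SOTri ρbar.ρ p (primeLocalPlace (pPrime p)) w)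
    (ab : k × k) (γ : Gp p) :
    (((cobW hw ab : ↥(Zw p ρbar w)) : ↥(Z1 (locLevelsAll (pPrime p)) (Mloc p ρbar))) :
      Gp p → Mloc p ρbar) γ = (ad0 ρbar).ρ (locp p γ) (triAd w ab) - triAd w ab := rfl

theorem range_cobW_le_ker (hw : Fermat.Agent.S59.SO.SOTri ρbar.ρ p (primeLocalPlace (pPrime p)) w) :
    (cobW hw).range ≤ (classW p ρbar w).ker := by
  rintro _ ⟨ab, rfl⟩
  rw [AddMonoidHom.mem_ker]
  show H1smπ (locLevelsAll (pPrime p)) (Mloc p ρbar)
    ((cobW hw ab : ↥(Zw p ρbar w)) : ↥(Z1 (locLevelsAll (pPrime p)) (Mloc p ρbar))) = 0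
  rw [H1smπ, Submodule.mkQ_apply, Submodule.Quotient.mk_eq_zero, Submodule.mem_comap]
  exact ⟨triAd w ab, rfl⟩

theorem card_ker_cobW_le [Finite k]
    (hw : Fermat.Agent.S59.SO.SOTri ρbar.ρ p (primeLocalPlace (pPrime p)) w) :
    Nat.card ↥(cobW hw).ker ≤ Nat.card ↥(H0loc (ad0 ρbar) (pPrime p)) := by
  have : Finite (ad0 ρbar) := Module.finite_of_finite k (M := ↥(ad0Sub ρbar))
  let Ψ : ↥(cobW hw).ker → ↥(H0loc (ad0 ρbar) (pPrime p)) := fun ab =>
    ⟨triAd w ab.1, fun h => by
      have h1 : cobW hw ab.1 = 0 := AddMonoidHom.mem_ker.mp ab.2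
      have h2 := cobW_apply hw ab.1 h
      rw [h1] at h2
      exact (sub_eq_zero.mp h2.symm)⟩
  have hΨ : Function.Injective Ψ := by
    intro ab ab' h
    exact Subtype.ext (triAd_injective w (congrArg Subtype.val h))
  exact Nat.card_le_card_of_injective Ψ hΨ

/-- **(N)** the counting argument: the wall `Lw` has at most `|k| · #H⁰` elements. -/
theorem card_Lw_le [Finite k] (hp2 : p ≠ 2) (hpk : (p : k) = 0)
    (hw : Fermat.Agent.S59.SO.SOTri ρbar.ρ p (primeLocalPlace (pPrime p)) w) :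
    Finite ↥(Lw p ρbar w) ∧
      Nat.card ↥(Lw p ρbar w) ≤ Nat.card k * Nat.card ↥(H0loc (ad0 ρbar) (pPrime p)) := by
  obtain ⟨hfin, hcard⟩ := card_Zw_le hp2 hpk hw
  have : Finite (ad0 ρbar) := Module.finite_of_finite k (M := ↥(ad0Sub ρbar))
  have hLfin : Finite ↥(Lw p ρbar w) := by
    rw [Lw]
    exact Finite.of_surjective (classW p ρbar w).rangeRestrict
      (classW p ρbar w).rangeRestrict_surjective
  refine ⟨hLfin, ?_⟩
  -- `#Zw = #ker · #Lw`
  have e1 : Nat.card ↥(classW p ρbar w).ker * Nat.card ↥(Lw p ρbar w) =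
      Nat.card ↥(Zw p ρbar w) := by
    rw [Lw, ← AddSubgroup.index_ker]
    exact AddSubgroup.card_mul_index _
  -- `|k|² = #ker(cob) · #range(cob)`
  have e2 : Nat.card ↥(cobW hw).ker * Nat.card ↥(cobW hw).range = Nat.card k ^ 2 := by
    rw [← AddSubgroup.index_ker, AddSubgroup.card_mul_index, Nat.card_prod, pow_two]
  have e3 : Nat.card ↥(cobW hw).range ≤ Nat.card ↥(classW p ρbar w).ker :=
    AddSubgroup.card_le_of_le (range_cobW_le_ker hw)
  have e4 := card_ker_cobW_le hw
  have hq : 0 < Nat.card k := Nat.card_pos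
  set q := Nat.card k
  set L := Nat.card ↥(Lw p ρbar w)
  set H := Nat.card ↥(H0loc (ad0 ρbar) (pPrime p))
  set K := Nat.card ↥(classW p ρbar w).ker
  set A := Nat.card ↥(cobW hw).ker
  set B := Nat.card ↥(cobW hw).range
  set Z := Nat.card ↥(Zw p ρbar w)
  have h5 : L * q ^ 2 ≤ q ^ 2 * (q * H) := by
    calc L * q ^ 2 = L * (A * B) := by rw [e2]
      _ ≤ L * (H * K) := Nat.mul_le_mul_left _ (Nat.mul_le_mul e4 e3)
      _ = H * (K * L) := by ring
      _ = H * Z := by rw [e1]
      _ ≤ H * q ^ 3 := Nat.mul_le_mul_left _ hcard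
      _ = q ^ 2 * (q * H) := by ring
  have h6 : q ^ 2 * L ≤ q ^ 2 * (q * H) := by rwa [mul_comm] at h5
  exact Nat.le_of_mul_le_mul_left h6 (pow_pos hq 2)

end Cob

end Fermat.Agent.S56.SO
end MergeWrap_S56_W3_SO_Count
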