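import Fermat.Agent.MU.S56.W3.SO.CycLoc
import Fermat.Agent.S56.W3.SO.PadicPow
import Fermat.Agent.MU.F4.Loc.Smooth.H90
import Fermat.Agent.MU.F4.Loc.Datum.Levels

section MergeWrap_S56_W3_SO_KummerFp -- from S56/W3/SO/KummerFp.lean

set_option autoImplicit false

namespace Fermat.Agent.S56.SO

open Fermat.Agent.F4 Fermat.Agent.F4.Loc ExtCitation

/-! ### the exponential `c ↦ ζ ^ c.val` -/

section Exp

variable {M : Type} [CommMonoid M] {n : ℕ}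

/-- `c ↦ ζ ^ c.val`, for `ζ ^ n = 1`. -/
def kfpE (ζ : M) (c : ZMod n) : M := ζ ^ c.val

lemma kfpE_natCast {ζ : M} (hζ : ζ ^ n = 1) (m : ℕ) : kfpE ζ (m : ZMod n) = ζ ^ m := by
  unfold kfpE
  rw [ZMod.val_natCast, ← pow_eq_pow_mod m hζ]

lemma kfpE_add [NeZero n] {ζ : M} (hζ : ζ ^ n = 1) (a b : ZMod n) :
    kfpE ζ (a + b) = kfpE ζ a * kfpE ζ b := by
  unfold kfpE
  rw [ZMod.val_add, ← pow_eq_pow_mod _ hζ, pow_add]

lemma kfpE_mul {ζ : M} (hζ : ζ ^ n = 1) (a b : ZMod n) :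
    kfpE ζ (a * b) = (kfpE ζ b) ^ a.val := by
  unfold kfpE
  rw [ZMod.val_mul, ← pow_eq_pow_mod _ hζ, mul_comm, pow_mul]

lemma kfpE_pow {ζ : M} (hζ : ζ ^ n = 1) (a : ZMod n) : kfpE ζ a ^ n = 1 := by
  unfold kfpE
  rw [← pow_mul, mul_comm, pow_mul, hζ, one_pow]

lemma kfpE_injective [NeZero n] {ζ : M} (hζ : IsPrimitiveRoot ζ n) :
    Function.Injective (kfpE (n := n) ζ) := fun a b h =>
  ZMod.val_injective n (hζ.pow_inj (ZMod.val_lt a) (ZMod.val_lt b) h)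

end Exp

/-! ### the root of unity and Hilbert 90 -/

section Main

variable (p : ℕ) [Fact p.Prime]

/-- A primitive `p`-th root of unity of `Ω`, on which `Gp p` acts through `cycLoc`. -/
theorem kfp_exists_zeta :
    ∃ ζ : (PadicAlgCl ((pPrime p : Nat.Primes) : ℕ))ˣ, IsPrimitiveRoot ζ p ∧
      ∀ γ : Gp p, γ • ζ = ζ ^ (cycLoc p γ).val := by
  have hp0 : p ≠ 0 := (Fact.out : p.Prime).ne_zero
  have : NeZero p := ⟨hp0⟩
  obtain ⟨ζ₀, hζ₀⟩ := HasEnoughRootsOfUnity.exists_primitiveRoot (AlgebraicClosure ℚ) p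
  have hζ : IsPrimitiveRoot (locEmb (pPrime p) ζ₀) p :=
    hζ₀.map_of_injective (locEmb_injective (pPrime p))
  refine ⟨(hζ.isUnit hp0).unit, IsPrimitiveRoot.coe_units_iff.1 hζ, fun γ => Units.ext ?_⟩
  rw [primeLocal_smul_units, Units.val_pow_eq_pow_val]
  show locAct (pPrime p) γ (locEmb (pPrime p) ζ₀) = (locEmb (pPrime p) ζ₀) ^ (cycLoc p γ).val
  rw [← locEmb_primeLocalToGlobal, ← map_pow]
  exact congrArg (locEmb (pPrime p)) (cycLoc_spec p γ ζ₀ hζ₀.pow_eq_one)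

variable {p}

/-- Hilbert 90 and descent of `b ^ p` to `ℚ_p`. -/
theorem kfp_exists_root {ζ : (PadicAlgCl ((pPrime p : Nat.Primes) : ℕ))ˣ} (hζp : ζ ^ p = 1)
    (hζ : ∀ γ : Gp p, γ • ζ = ζ ^ (cycLoc p γ).val)
    {f : Gp p → ZMod p} (hf : f ∈ twZ p (cycLoc p)) :
    ∃ (b : (PadicAlgCl ((pPrime p : Nat.Primes) : ℕ))ˣ) (x : ℚ_[((pPrime p : Nat.Primes) : ℕ)]ˣ),
      (∀ γ : Gp p, γ • b / b = kfpE ζ (f γ)) ∧
        algebraMap ℚ_[((pPrime p : Nat.Primes) : ℕ)] (PadicAlgCl ((pPrime p : Nat.Primes) : ℕ))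
          (x : ℚ_[((pPrime p : Nat.Primes) : ℕ)])
          = ((b ^ p : (PadicAlgCl ((pPrime p : Nat.Primes) : ℕ))ˣ) :
              PadicAlgCl ((pPrime p : Nat.Primes) : ℕ)) := by
  have : NeZero p := ⟨(Fact.out : p.Prime).ne_zero⟩
  obtain ⟨⟨V, hV, hVf⟩, hcoc⟩ := hf
  have hVn : V.Normal := (locLevelsAll (pPrime p)).normal V hV
  have ht : groupCohomology.IsMulCocycle₁ (fun γ : Gp p => kfpE ζ (f γ)) := by
    intro g h
    show kfpE ζ (f (g * h)) = g • kfpE ζ (f h) * kfpE ζ (f g)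
    rw [hcoc, kfpE_add hζp, kfpE_mul hζp, mul_comm]
    congr 1
    unfold kfpE
    rw [smul_pow', hζ g, ← pow_mul, ← pow_mul, mul_comm]
  have htV : IsConst1 V (fun γ : Gp p => kfpE ζ (f γ)) := fun g v hv => by
    show kfpE ζ (f (g * v)) = kfpE ζ (f g)
    rw [hVf g v hv]
  obtain ⟨b, -, hb⟩ := h90_exists_fixed (isLocalGal_primeLocal (pPrime p))
    (isOpenSub_locLevelsAll (pPrime p) hV) ht htV
  have hfix : ∀ γ : Gp p, γ • (b ^ p) = b ^ p := by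
    intro γ
    have h1 : γ • b = kfpE ζ (f γ) * b := by rw [← hb γ, div_mul_cancel]
    rw [smul_pow', h1, mul_pow, kfpE_pow hζp, one_mul]
  have hfix' : ∀ σ : PadicAlgCl ((pPrime p : Nat.Primes) : ℕ)
      ≃ₐ[ℚ_[((pPrime p : Nat.Primes) : ℕ)]] PadicAlgCl ((pPrime p : Nat.Primes) : ℕ),
      σ ((b ^ p : (PadicAlgCl ((pPrime p : Nat.Primes) : ℕ))ˣ) :
          PadicAlgCl ((pPrime p : Nat.Primes) : ℕ))
        = ((b ^ p : (PadicAlgCl ((pPrime p : Nat.Primes) : ℕ))ˣ) :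
          PadicAlgCl ((pPrime p : Nat.Primes) : ℕ)) := by
    intro σ
    have h1 := congrArg Units.val (hfix σ)
    exact (primeLocal_smul_units (pPrime p) σ (b ^ p)).symm.trans h1
  obtain ⟨x, hx⟩ := (InfiniteGalois.mem_range_algebraMap_iff_fixed _).2 hfix'
  have hx0 : x ≠ 0 := by
    rintro rfl
    rw [map_zero] at hx
    exact (Units.ne_zero _) hx.symm
  exact ⟨b, Units.mk0 x hx0, hb, hx⟩

end Main

/-- **(K1)** the `cycLoc`-twisted cocycles `Gp p → 𝔽_p` fall into at most `p²` classes modulo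
coboundaries (`H¹(ℚ_p, μ_p) ↪ ℚ_p^× / (ℚ_p^×)^p`). -/
theorem so_kummer_fp (p : ℕ) [Fact p.Prime] (hp2 : p ≠ 2) :
    ∃ F : (Gp p → ZMod p) → Fin (p ^ 2), ∀ f f' : Gp p → ZMod p,
      f ∈ twZ p (cycLoc p) → f' ∈ twZ p (cycLoc p) → F f = F f' →
      ∃ t : ZMod p, ∀ γ : Gp p, f γ - f' γ = (cycLoc p γ - 1) * t := by
  classical
  have : NeZero p := ⟨(Fact.out : p.Prime).ne_zero⟩
  have hK2 : ∃ F : ℚ_[((pPrime p : Nat.Primes) : ℕ)]ˣ → Fin (p ^ 2),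
      ∀ x y : ℚ_[((pPrime p : Nat.Primes) : ℕ)]ˣ, F x = F y →
        ∃ z : ℚ_[((pPrime p : Nat.Primes) : ℕ)]ˣ, x = y * z ^ p :=
    so_padic_units_mod_pow p hp2
  obtain ⟨F₂, hF₂⟩ := hK2
  obtain ⟨ζ, hζprim, hζ⟩ := kfp_exists_zeta p
  have hζp : ζ ^ p = 1 := hζprim.pow_eq_one
  have hex : ∀ f : Gp p → ZMod p, ∃ x : ℚ_[((pPrime p : Nat.Primes) : ℕ)]ˣ,
      f ∈ twZ p (cycLoc p) → ∃ b : (PadicAlgCl ((pPrime p : Nat.Primes) : ℕ))ˣ,
        (∀ γ : Gp p, γ • b / b = kfpE ζ (f γ)) ∧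
        algebraMap ℚ_[((pPrime p : Nat.Primes) : ℕ)] (PadicAlgCl ((pPrime p : Nat.Primes) : ℕ))
          (x : ℚ_[((pPrime p : Nat.Primes) : ℕ)])
          = ((b ^ p : (PadicAlgCl ((pPrime p : Nat.Primes) : ℕ))ˣ) :
              PadicAlgCl ((pPrime p : Nat.Primes) : ℕ)) := by
    intro f
    by_cases hf : f ∈ twZ p (cycLoc p)
    · obtain ⟨b, x, hb, hx⟩ := kfp_exists_root hζp hζ hf
      exact ⟨x, fun _ => ⟨b, hb, hx⟩⟩
    · exact ⟨1, fun h => absurd h hf⟩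
  choose X hX using hex
  refine ⟨fun f => F₂ (X f), fun f f' hf hf' hFF => ?_⟩
  obtain ⟨b, hb, hx⟩ := hX f hf
  obtain ⟨b', hb', hx'⟩ := hX f' hf'
  obtain ⟨z, hz⟩ := hF₂ _ _ hFF
  -- the image of `z` in `Ωˣ`
  obtain ⟨zu, hzu, hzfix⟩ : ∃ zu : (PadicAlgCl ((pPrime p : Nat.Primes) : ℕ))ˣ,
      b ^ p = b' ^ p * zu ^ p ∧ ∀ γ : Gp p, γ • zu = zu := by
    refine ⟨Units.map (algebraMap ℚ_[((pPrime p : Nat.Primes) : ℕ)]
      (PadicAlgCl ((pPrime p : Nat.Primes) : ℕ))).toMonoidHom z, Units.ext ?_,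
      fun γ => Units.ext ?_⟩
    · rw [← hx, Units.val_mul, ← hx', Units.val_pow_eq_pow_val, Units.coe_map]
      show algebraMap _ _ ((X f : ℚ_[((pPrime p : Nat.Primes) : ℕ)]ˣ) :
        ℚ_[((pPrime p : Nat.Primes) : ℕ)]) = _ * (algebraMap _ _
          (z : ℚ_[((pPrime p : Nat.Primes) : ℕ)])) ^ p
      rw [← map_pow, ← map_mul]
      exact congrArg _ (congrArg Units.val hz)
    · rw [primeLocal_smul_units, Units.coe_map]
      exact AlgEquiv.commutes (show PadicAlgCl ((pPrime p : Nat.Primes) : ℕ)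
        ≃ₐ[ℚ_[((pPrime p : Nat.Primes) : ℕ)]] PadicAlgCl ((pPrime p : Nat.Primes) : ℕ) from γ) _
  have hc : (b / (b' * zu)) ^ p = 1 := by
    rw [div_pow, mul_pow, hzu, div_self']
  obtain ⟨j, hjc⟩ : ∃ j : ℕ, ζ ^ j = b / (b' * zu) := by
    have hc' : ((b / (b' * zu) : (PadicAlgCl ((pPrime p : Nat.Primes) : ℕ))ˣ) :
        PadicAlgCl ((pPrime p : Nat.Primes) : ℕ)) ^ p = 1 := by
      rw [← Units.val_pow_eq_pow_val, hc, Units.val_one]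
    obtain ⟨j, -, hj⟩ := (IsPrimitiveRoot.coe_units_iff.2 hζprim).eq_pow_of_pow_eq_one hc'
    exact ⟨j, Units.ext (by rw [Units.val_pow_eq_pow_val, hj])⟩
  have hbeq : b = b' * zu * ζ ^ j := by
    rw [hjc, mul_div_cancel]
  refine ⟨(j : ZMod p), fun γ => ?_⟩
  -- `E ((ω - 1) j) * E j = E (ω j)`
  have h2 : kfpE ζ ((cycLoc p γ - 1) * (j : ZMod p)) * ζ ^ j = (ζ ^ j) ^ (cycLoc p γ).val := by
    rw [← kfpE_natCast hζp j, ← kfpE_add hζp, ← kfpE_mul hζp]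
    congr 1
    ring
  have h1 : kfpE ζ (f γ) = kfpE ζ (f' γ) * kfpE ζ ((cycLoc p γ - 1) * (j : ZMod p)) := by
    have e1 : γ • b = kfpE ζ (f γ) * b := by rw [← hb γ, div_mul_cancel]
    have e2 : γ • b' = kfpE ζ (f' γ) * b' := by rw [← hb' γ, div_mul_cancel]
    have e3 : γ • b = γ • b' * zu * (ζ ^ j) ^ (cycLoc p γ).val := by
      conv_lhs => rw [hbeq]
      rw [smul_mul', smul_mul', hzfix, smul_pow', hζ γ, ← pow_mul, ← pow_mul, mul_comm j]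
    have e4 : kfpE ζ (f γ) * b
        = kfpE ζ (f' γ) * kfpE ζ ((cycLoc p γ - 1) * (j : ZMod p)) * b := by
      rw [← e1, e3, e2, ← h2]
      conv_rhs => rw [hbeq]
      ac_rfl
    exact mul_right_cancel e4
  rw [← kfpE_add hζp] at h1
  have h3 := kfpE_injective hζprim h1
  rw [h3]
  ring

end Fermat.Agent.S56.SO
end MergeWrap_S56_W3_SO_KummerFp
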